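import Mathlib
import Fermat.Prelude.Def_EllipticCurve_FrobeniusTrace

/-!
# Existence of Frobenius elements in `Gal(ℚ̄/ℚ)`

For every prime `ℓ` there is a valuation subring `A` of `ℚ̄ = AlgebraicClosure ℚ` lying over `ℓ`
(in the prelude's sense `ValuationSubring.LiesOverPrime`) and a `σ ∈ Gal(ℚ̄/ℚ)` which is a Frobenius
element at `A` (in the prelude's sense `ValuationSubring.IsFrobeniusAt`).

Strategy: `Gal(ℚ̄/ℚ)` is profinite and acts continuously on the ring `ℤ̄` of algebraic integers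
with invariants `ℤ`; Mathlib's `Ideal.Quotient.stabilizerHom_surjective_of_profinite` lifts the
Frobenius automorphism of `ℤ̄/Q` to the stabiliser of `Q`.  The localisation of `ℤ̄` at `Q` is a
valuation ring (checked inside number fields, where rings of integers are Dedekind).
-/

set_option autoImplicit false

open scoped Pointwise

namespace Fermat.Agent.Lib

noncomputable section

local notation "Qb" => AlgebraicClosure ℚ
local notation "Γ" => (AlgebraicClosure ℚ ≃ₐ[ℚ] AlgebraicClosure ℚ)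
local notation "Zb" => integralClosure ℤ (AlgebraicClosure ℚ)

theorem FA_algebra_rat_Qb_eq :
    (AlgebraicClosure.instAlgebra ℚ : Algebra ℚ (AlgebraicClosure ℚ)) = DivisionRing.toRatAlgebra :=
  Subsingleton.elim _ _

theorem FA_isAlgebraic_Qb : Algebra.IsAlgebraic ℚ (AlgebraicClosure ℚ) := by
  rw [← FA_algebra_rat_Qb_eq]; infer_instance

attribute [local instance] FA_isAlgebraic_Qb

theorem FA_isAlgClosure_Qb : IsAlgClosure ℚ (AlgebraicClosure ℚ) :=
  ⟨inferInstance, FA_isAlgebraic_Qb⟩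

attribute [local instance] FA_isAlgClosure_Qb

theorem FA_isInvariant_Zb : Algebra.IsInvariant ℤ Zb Γ where
  isInvariant b hb := by
    have h1 : ∀ f : Γ, f (b : Qb) = b := by
      intro f
      have := congrArg Subtype.val (hb f)
      simpa using this
    obtain ⟨q, hq⟩ :=
      (InfiniteGalois.mem_range_algebraMap_iff_fixed (k := ℚ) (K := Qb) (b : Qb)).mpr h1
    have hint : IsIntegral ℤ (algebraMap ℚ Qb q) := hq ▸ b.2
    rw [isIntegral_algebraMap_iff (algebraMap ℚ Qb).injective] at hint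
    obtain ⟨n, hn⟩ := IsIntegrallyClosed.isIntegral_iff.mp hint
    refine ⟨n, Subtype.ext ?_⟩
    rw [← hq, ← hn]
    simp

attribute [local instance] FA_isInvariant_Zb

/-- The discrete topology on `ℤ̄`. -/
@[reducible] def FA_topZb : TopologicalSpace Zb := ⊥

attribute [local instance] FA_topZb

theorem FA_discZb : DiscreteTopology Zb := ⟨rfl⟩

attribute [local instance] FA_discZb

theorem FA_contSMul_Zb : ContinuousSMul Γ Zb := by
  rw [continuousSMul_iff_stabilizer_isOpen]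
  intro b
  have h := stabilizer_isOpen_of_isIntegral (K := ℚ) (L := Qb) (b : Qb)
  convert h using 1
  ext g
  simp only [SetLike.mem_coe, MulAction.mem_stabilizer_iff]
  constructor
  · intro h; exact congrArg Subtype.val h
  · intro h; exact Subtype.ext h

attribute [local instance] FA_contSMul_Zb

/-- A prime `Q` of `ℤ̄` over `ℓ` together with a Frobenius lift `g` stabilising it. -/
theorem FA_exists_frob_Zb (ℓ : ℕ) (hℓ : ℓ.Prime) :
    ∃ (Q : Ideal Zb) (g : Γ), Q.IsMaximal ∧ ((ℓ : Zb) ∈ Q) ∧ g • Q = Q ∧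
      ∀ b : Zb, g • b - b ^ ℓ ∈ Q := by
  classical
  have : Fact ℓ.Prime := Fact.mk hℓ
  let P : Ideal ℤ := Ideal.span {(ℓ : ℤ)}
  have hPmax : P.IsMaximal :=
    PrincipalIdealRing.isMaximal_of_irreducible
      (Int.prime_iff_natAbs_prime.mpr (by simpa using hℓ)).irreducible
  have hker : RingHom.ker (algebraMap ℤ Zb) ≤ P := by
    intro x hx
    rw [RingHom.mem_ker] at hx
    have hx' : ((algebraMap ℤ Zb x : Zb) : Qb) = 0 := by rw [hx]; rfl
    have : (x : Qb) = 0 := by simpa using hx'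
    have : x = 0 := by exact_mod_cast this
    rw [this]; exact P.zero_mem
  obtain ⟨Q, hQmax, hQP⟩ := Ideal.exists_ideal_over_maximal_of_isIntegral (S := Zb) P hker
  have : Q.IsMaximal := hQmax
  have : Q.LiesOver P := ⟨hQP.symm⟩
  have hℓQ : (ℓ : Zb) ∈ Q := by
    have h1 : (ℓ : ℤ) ∈ P := Ideal.subset_span rfl
    rw [← hQP, Ideal.mem_comap] at h1
    simpa using h1
  let _ : Field (ℤ ⧸ P) := Ideal.Quotient.field P
  let _ : Field (Zb ⧸ Q) := Ideal.Quotient.field Q
  have : CharP (Zb ⧸ Q) ℓ := by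
    apply (CharP.charP_iff_prime_eq_zero hℓ).mpr
    have : ((ℓ : Zb ⧸ Q)) = Ideal.Quotient.mk Q (ℓ : Zb) := by simp
    rw [this, Ideal.Quotient.eq_zero_iff_mem]
    exact hℓQ
  have : ExpChar (Zb ⧸ Q) ℓ := ExpChar.prime hℓ
  -- Frobenius as an algebra hom
  let F : (Zb ⧸ Q) →ₐ[ℤ ⧸ P] (Zb ⧸ Q) :=
    { toRingHom := frobenius (Zb ⧸ Q) ℓ
      commutes' := by
        intro a
        obtain ⟨n, rfl⟩ := Ideal.Quotient.mk_surjective a
        change (algebraMap (ℤ ⧸ P) (Zb ⧸ Q) (Ideal.Quotient.mk P n)) ^ ℓ = _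
        rw [← map_pow]
        congr 1
        rw [← map_pow, Ideal.Quotient.eq, Ideal.mem_span_singleton]
        have h := ZMod.pow_card (n : ZMod ℓ)
        have h2 : ((n ^ ℓ - n : ℤ) : ZMod ℓ) = 0 := by push_cast; rw [h]; ring
        exact (ZMod.intCast_zmod_eq_zero_iff_dvd _ _).mp h2 }
  have hFinj : Function.Injective F := (frobenius (Zb ⧸ Q) ℓ).injective
  have hFsurj : Function.Surjective F := by
    have : Finite (ℤ ⧸ P) := Finite.of_equiv _ (Int.quotientSpanNatEquivZMod ℓ).symm.toEquiv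
    have : PerfectField (ℤ ⧸ P) := PerfectField.ofFinite
    have : Algebra.IsAlgebraic (ℤ ⧸ P) (Zb ⧸ Q) := inferInstance
    have : PerfectField (Zb ⧸ Q) := Algebra.IsAlgebraic.perfectField (K := ℤ ⧸ P)
    have : PerfectRing (Zb ⧸ Q) ℓ := PerfectField.toPerfectRing ℓ
    exact surjective_frobenius (Zb ⧸ Q) ℓ
  let σ : (Zb ⧸ Q) ≃ₐ[ℤ ⧸ P] (Zb ⧸ Q) := AlgEquiv.ofBijective F ⟨hFinj, hFsurj⟩
  obtain ⟨⟨g, hg⟩, hgσ⟩ := Ideal.Quotient.stabilizerHom_surjective_of_profinite P Q (G := Γ) σ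
  refine ⟨Q, g, hQmax, hℓQ, hg, fun b => ?_⟩
  have h1 := congrArg (fun τ => τ (Ideal.Quotient.mk Q b)) hgσ
  simp only [Ideal.Quotient.stabilizerHom_apply] at h1
  have h2 : σ (Ideal.Quotient.mk Q b) = (Ideal.Quotient.mk Q b) ^ ℓ := rfl
  rw [h2, ← map_pow] at h1
  exact Ideal.Quotient.eq.mp h1

/-- The localisation of `ℤ̄` at a prime `Q`, as a subring of `ℚ̄`. -/
def FA_locSubring (Q : Ideal Zb) [Q.IsPrime] : Subring Qb where
  carrier := {x | ∃ b s : Zb, s ∉ Q ∧ x * (s : Qb) = (b : Qb)}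
  zero_mem' := ⟨0, 1, (Ideal.ne_top_iff_one Q).mp (Ideal.IsPrime.ne_top inferInstance), by simp⟩
  one_mem' := ⟨1, 1, (Ideal.ne_top_iff_one Q).mp (Ideal.IsPrime.ne_top inferInstance), by simp⟩
  add_mem' := by
    rintro x y ⟨b, s, hs, h⟩ ⟨b', s', hs', h'⟩
    refine ⟨b * s' + b' * s, s * s', fun hmem => ?_, ?_⟩
    · rcases Ideal.IsPrime.mem_or_mem inferInstance hmem with h1 | h1
      · exact hs h1
      · exact hs' h1
    · push_cast
      linear_combination (s' : Qb) * h + (s : Qb) * h'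
  mul_mem' := by
    rintro x y ⟨b, s, hs, h⟩ ⟨b', s', hs', h'⟩
    refine ⟨b * b', s * s', fun hmem => ?_, ?_⟩
    · rcases Ideal.IsPrime.mem_or_mem inferInstance hmem with h1 | h1
      · exact hs h1
      · exact hs' h1
    · push_cast
      linear_combination (y * (s' : Qb)) * h + (b : Qb) * h'
  neg_mem' := by
    rintro x ⟨b, s, hs, h⟩
    refine ⟨-b, s, hs, ?_⟩
    push_cast
    linear_combination - h

/-- Key input (Dedekind): the localisation of `ℤ̄` at a prime over `ℓ` is a valuation ring. -/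
theorem FA_locSubring_mem_or_inv_mem (Q : Ideal Zb) [Q.IsPrime] (ℓ : ℕ) (hℓ : ℓ ≠ 0)
    (hℓQ : (ℓ : Zb) ∈ Q) (x : Qb) :
    x ∈ FA_locSubring Q ∨ x⁻¹ ∈ FA_locSubring Q := by
  classical
  -- the number field generated by x
  let K : IntermediateField ℚ Qb := IntermediateField.adjoin ℚ {x}
  have : FiniteDimensional ℚ K :=
    IntermediateField.adjoin.finiteDimensional (Algebra.IsIntegral.isIntegral x)
  have : NumberField K := NumberField.of_module_finite ℚ K
  let x' : K := ⟨x, IntermediateField.mem_adjoin_simple_self ℚ x⟩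
  -- the map 𝓞 K → ℤ̄
  have hint : ∀ r : NumberField.RingOfIntegers K, IsIntegral ℤ (((r : K) : Qb)) := by
    intro r
    have h1 : IsIntegral ℤ (r : K) := NumberField.RingOfIntegers.isIntegral_coe r
    exact h1.map (IsScalarTower.toAlgHom ℤ K Qb)
  let ι : NumberField.RingOfIntegers K →+* Zb :=
    { toFun := fun r => ⟨((r : K) : Qb), hint r⟩
      map_one' := by apply Subtype.ext; simp
      map_mul' := fun a b => by apply Subtype.ext; simp
      map_zero' := by apply Subtype.ext; simp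
      map_add' := fun a b => by apply Subtype.ext; simp }
  have hι : ∀ r : NumberField.RingOfIntegers K, ((ι r : Zb) : Qb) = ((r : K) : Qb) := fun r => rfl
  let 𝔭 : Ideal (NumberField.RingOfIntegers K) := Q.comap ι
  have h𝔭 : 𝔭.IsPrime := Ideal.comap_isPrime ι Q
  have h𝔭ne : 𝔭 ≠ ⊥ := by
    intro h
    have h1 : (ℓ : NumberField.RingOfIntegers K) ∈ 𝔭 := by
      rw [Ideal.mem_comap]
      have : ι (ℓ : NumberField.RingOfIntegers K) = (ℓ : Zb) := by simp
      rw [this]; exact hℓQ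
    rw [h, Ideal.mem_bot] at h1
    have : (ℓ : NumberField.RingOfIntegers K) ≠ 0 := by exact_mod_cast hℓ
    exact this h1
  let v : IsDedekindDomain.HeightOneSpectrum (NumberField.RingOfIntegers K) := ⟨𝔭, h𝔭, h𝔭ne⟩
  obtain ⟨n, d, hnd⟩ := v.exists_primeCompl_mul_eq_or_mul_eq (K := K) x'
  have hd : ι d ∉ Q := fun h => d.2 h
  rcases hnd with hnd | hnd
  · left
    refine ⟨ι n, ι d, hd, ?_⟩
    have := congrArg (fun z : K => (z : Qb)) hnd
    simpa [hι] using this
  · right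
    have h1 := congrArg (fun z : K => (z : Qb)) hnd
    have h2 : x * ((ι n : Zb) : Qb) = ((ι d : Zb) : Qb) := by simpa [hι] using h1
    have hd0 : ((ι d : Zb) : Qb) ≠ 0 := by
      intro h0
      apply hd
      have : ι d = 0 := Subtype.ext h0
      rw [this]; exact Q.zero_mem
    have hx0 : x ≠ 0 := by
      rintro rfl
      rw [zero_mul] at h2
      exact hd0 h2.symm
    refine ⟨ι n, ι d, hd, ?_⟩
    rw [← h2]
    field_simp

/-- The valuation subring of `ℚ̄` attached to a prime of `ℤ̄` over `ℓ`. -/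
def FA_valSubring (Q : Ideal Zb) [Q.IsPrime] (ℓ : ℕ) (hℓ : ℓ ≠ 0) (hℓQ : (ℓ : Zb) ∈ Q) :
    ValuationSubring Qb :=
  ValuationSubring.ofSubring (FA_locSubring Q) (FA_locSubring_mem_or_inv_mem Q ℓ hℓ hℓQ)

theorem FA_mem_valSubring {Q : Ideal Zb} [Q.IsPrime] {ℓ : ℕ} {hℓ : ℓ ≠ 0} {hℓQ : (ℓ : Zb) ∈ Q}
    {x : Qb} :
    x ∈ FA_valSubring Q ℓ hℓ hℓQ ↔ ∃ b s : Zb, s ∉ Q ∧ x * (s : Qb) = (b : Qb) := Iff.rfl

theorem FA_mem_nonunits_valSubring {Q : Ideal Zb} [Q.IsPrime] {ℓ : ℕ} {hℓ : ℓ ≠ 0}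
    {hℓQ : (ℓ : Zb) ∈ Q} {y : Qb} (q t : Zb) (hq : q ∈ Q) (ht : t ∉ Q)
    (h : y * (t : Qb) = (q : Qb)) : y ∈ (FA_valSubring Q ℓ hℓ hℓQ).nonunits := by
  rw [ValuationSubring.mem_nonunits_iff_or]
  by_cases hy : y = 0
  · exact Or.inl hy
  · right
    rintro ⟨b', s', hs', h'⟩
    -- s' * t = q * b'
    have h1 : ((s' * t : Zb) : Qb) = ((q * b' : Zb) : Qb) := by
      push_cast
      have : (s' : Qb) = y * (b' : Qb) := by
        rw [← h']; field_simp
      rw [this, ← h]; ring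
    have h2 : s' * t = q * b' := Subtype.ext h1
    have h3 : s' * t ∈ Q := h2 ▸ Q.mul_mem_right b' hq
    rcases Ideal.IsPrime.mem_or_mem inferInstance h3 with h4 | h4
    · exact hs' h4
    · exact ht h4

theorem FA_smul_mem_valSubring {Q : Ideal Zb} [Q.IsPrime] {ℓ : ℕ} {hℓ : ℓ ≠ 0}
    {hℓQ : (ℓ : Zb) ∈ Q} (h : Γ) (hh : h • Q = Q) {x : Qb}
    (hx : x ∈ FA_valSubring Q ℓ hℓ hℓQ) : h • x ∈ FA_valSubring Q ℓ hℓ hℓQ := by
  obtain ⟨b, s, hs, hxs⟩ := hx
  refine ⟨h • b, h • s, fun hmem => hs ?_, ?_⟩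
  · rw [← hh] at hmem
    exact (Ideal.smul_mem_pointwise_smul_iff).mp hmem
  · have := congrArg (fun z => h • z) hxs
    simpa [smul_mul'] using this

/-- For every prime `ℓ` there is a valuation subring of `ℚ̄` over `ℓ` together with a Frobenius
element at it. -/
theorem FA_exists_frobenius (ℓ : ℕ) (hℓ : ℓ.Prime) :
    ∃ A : ValuationSubring (AlgebraicClosure ℚ), A.LiesOverPrime ℓ ∧
      ∃ σ : AlgebraicClosure ℚ ≃ₐ[ℚ] AlgebraicClosure ℚ, A.IsFrobeniusAt σ ℓ := by
  classical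
  obtain ⟨Q, g, hQmax, hℓQ, hgQ, hfrob⟩ := FA_exists_frob_Zb ℓ hℓ
  have : Q.IsPrime := hQmax.isPrime
  refine ⟨FA_valSubring Q ℓ hℓ.ne_zero hℓQ, ?_, g, ?_⟩
  · -- lies over ℓ
    refine FA_mem_nonunits_valSubring (ℓ : Zb) 1 hℓQ
      ((Ideal.ne_top_iff_one Q).mp (Ideal.IsPrime.ne_top inferInstance)) ?_
    simp
  · -- Frobenius
    have hg'Q : g⁻¹ • Q = Q := by
      conv_lhs => rw [← hgQ]
      rw [inv_smul_smul]
    have hgA : g ∈ (FA_valSubring Q ℓ hℓ.ne_zero hℓQ).decompositionSubgroup ℚ := by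
      rw [MulAction.mem_stabilizer_iff]
      apply le_antisymm
      · intro x hx
        rw [ValuationSubring.mem_pointwise_smul_iff_inv_smul_mem] at hx
        have := FA_smul_mem_valSubring g hgQ hx
        simpa using this
      · intro x hx
        rw [ValuationSubring.mem_pointwise_smul_iff_inv_smul_mem]
        exact FA_smul_mem_valSubring g⁻¹ hg'Q hx
    refine ⟨hgA, fun x => ?_⟩
    obtain ⟨a, rfl⟩ := IsLocalRing.residue_surjective x
    rw [← IsLocalRing.ResidueField.residue_smul, ← map_pow]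
    rw [← sub_eq_zero, ← map_sub, IsLocalRing.residue_eq_zero_iff,
      ← ValuationSubring.coe_mem_nonunits_iff]
    obtain ⟨b, s, hs, has⟩ := a.2
    have hgs : g • s ∉ Q := fun hmem => hs (by
      rw [← hgQ] at hmem
      exact (Ideal.smul_mem_pointwise_smul_iff).mp hmem)
    refine FA_mem_nonunits_valSubring ((g • b - b ^ ℓ) * s ^ ℓ - b ^ ℓ * (g • s - s ^ ℓ))
      ((g • s) * s ^ ℓ) ?_ ?_ ?_
    · exact Q.sub_mem (Q.mul_mem_right _ (hfrob b)) (Q.mul_mem_left _ (hfrob s))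
    · intro hmem
      rcases Ideal.IsPrime.mem_or_mem inferInstance hmem with h4 | h4
      · exact hgs h4
      · exact hs (Ideal.IsPrime.mem_of_pow_mem inferInstance _ h4)
    · have hga : ((⟨g, hgA⟩ : (FA_valSubring Q ℓ hℓ.ne_zero hℓQ).decompositionSubgroup ℚ) • a :
          (FA_valSubring Q ℓ hℓ.ne_zero hℓQ)) = g • (a : Qb) := rfl
      have h1 : g • ((a : Qb) * (s : Qb)) = g • (b : Qb) := congrArg (fun z => g • z) has
      rw [smul_mul'] at h1
      push_cast
      rw [hga]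
      have e1 : (((g • s : Zb)) : Qb) = g • (s : Qb) := rfl
      have e2 : (((g • b : Zb)) : Qb) = g • (b : Qb) := rfl
      rw [e1, e2, ← h1, ← has]
      ring

end

end Fermat.Agent.Lib
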