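import Mathlib

/-!
# The field of meromorphic functions on the upper half plane (as `FractionRing` of the
ring of holomorphic functions), orders of vanishing, and the action of `SL(2, ℤ)`.

API (all names `FA_Mero_*`, namespace `Fermat.Agent.Mero`):
* `FA_Mero_Hol : Subalgebra ℂ (ℍ → ℂ)` : holomorphic functions on `ℍ`; it is a domain.
* `FA_Mero_Field := FractionRing FA_Mero_Hol`.
* `FA_Mero_ext f : ℂ → ℂ := f ∘ ofComplex`.
* `FA_Mero_val z₀ : Valuation FA_Mero_Field ℤᵐ⁰`, `FA_Mero_ord z₀ : FA_Mero_Field → ℤ`.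
-/

set_option autoImplicit false

noncomputable section

open UpperHalfPlane Complex WithZero
open scoped MatrixGroups Manifold Topology

namespace Fermat.Agent.Mero

/-- The ring of holomorphic functions on the upper half plane. -/
def FA_Mero_Hol : Subalgebra ℂ (ℍ → ℂ) where
  carrier := {f | MDiff f}
  mul_mem' := fun {_ _} hf hg => hf.mul hg
  one_mem' := mdifferentiable_const
  add_mem' := fun {_ _} hf hg => hf.add hg
  zero_mem' := mdifferentiable_const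
  algebraMap_mem' := fun _ => mdifferentiable_const

theorem FA_Mero_mem_Hol {f : ℍ → ℂ} : f ∈ FA_Mero_Hol ↔ MDiff f := Iff.rfl

/-- Extension of a function on `ℍ` to `ℂ` (junk outside `ℍ`). -/
def FA_Mero_ext (f : ℍ → ℂ) : ℂ → ℂ := f ∘ ofComplex

theorem FA_Mero_ext_apply (f : ℍ → ℂ) (z : ℍ) : FA_Mero_ext f (z : ℂ) = f z := by
  simp [FA_Mero_ext]

theorem FA_Mero_ext_apply_of_im_pos (f : ℍ → ℂ) {z : ℂ} (hz : 0 < z.im) :
    FA_Mero_ext f z = f ⟨z, hz⟩ := by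
  simp [FA_Mero_ext, ofComplex_apply_of_im_pos hz]

theorem FA_Mero_ext_add (f g : ℍ → ℂ) : FA_Mero_ext (f + g) = FA_Mero_ext f + FA_Mero_ext g := rfl

theorem FA_Mero_ext_mul (f g : ℍ → ℂ) : FA_Mero_ext (f * g) = FA_Mero_ext f * FA_Mero_ext g := rfl

theorem FA_Mero_ext_zero : FA_Mero_ext (0 : ℍ → ℂ) = 0 := rfl

theorem FA_Mero_ext_one : FA_Mero_ext (1 : ℍ → ℂ) = 1 := rfl

theorem FA_Mero_ext_differentiableOn {f : ℍ → ℂ} (hf : MDiff f) :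
    DifferentiableOn ℂ (FA_Mero_ext f) upperHalfPlaneSet :=
  UpperHalfPlane.mdifferentiable_iff.mp hf

theorem FA_Mero_ext_analyticOnNhd {f : ℍ → ℂ} (hf : MDiff f) :
    AnalyticOnNhd ℂ (FA_Mero_ext f) upperHalfPlaneSet :=
  (FA_Mero_ext_differentiableOn hf).analyticOnNhd isOpen_upperHalfPlaneSet

theorem FA_Mero_ext_analyticAt {f : ℍ → ℂ} (hf : MDiff f) (z : ℍ) :
    AnalyticAt ℂ (FA_Mero_ext f) (z : ℂ) :=
  FA_Mero_ext_analyticOnNhd hf z z.2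

theorem FA_Mero_isPreconnected : IsPreconnected upperHalfPlaneSet :=
  (convex_halfSpace_im_gt 0).isPreconnected

/-- Identity theorem on `ℍ`: a holomorphic function vanishing near a point is zero. -/
theorem FA_Mero_eq_zero_of_eventually {f : ℍ → ℂ} (hf : MDiff f) (z₀ : ℍ)
    (h : ∀ᶠ z in 𝓝 (z₀ : ℂ), FA_Mero_ext f z = 0) : f = 0 := by
  have := (FA_Mero_ext_analyticOnNhd hf).eqOn_zero_of_preconnected_of_eventuallyEq_zero
    FA_Mero_isPreconnected z₀.2 h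
  funext z
  have hz := this z.2
  simpa [FA_Mero_ext_apply] using hz

theorem FA_Mero_analyticOrderAt_ne_top {f : ℍ → ℂ} (hf : MDiff f) (hf0 : f ≠ 0) (z₀ : ℍ) :
    analyticOrderAt (FA_Mero_ext f) (z₀ : ℂ) ≠ ⊤ := by
  intro h
  rw [analyticOrderAt_eq_top] at h
  exact hf0 (FA_Mero_eq_zero_of_eventually hf z₀ h)

instance FA_Mero_Hol_noZeroDivisors : NoZeroDivisors FA_Mero_Hol where
  eq_zero_or_eq_zero_of_mul_eq_zero := by
    rintro ⟨f, hf⟩ ⟨g, hg⟩ h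
    have hfg : f * g = 0 := congrArg Subtype.val h
    by_contra hcon
    rw [not_or] at hcon
    have hf0 : f ≠ 0 := fun h0 => hcon.1 (Subtype.ext h0)
    have hg0 : g ≠ 0 := fun h0 => hcon.2 (Subtype.ext h0)
    have z₀ : ℍ := ⟨Complex.I, by simp⟩
    have h1 := FA_Mero_analyticOrderAt_ne_top hf hf0 z₀
    have h2 := FA_Mero_analyticOrderAt_ne_top hg hg0 z₀
    have h3 : analyticOrderAt (FA_Mero_ext (f * g)) (z₀ : ℂ) = ⊤ := by
      rw [hfg, FA_Mero_ext_zero, analyticOrderAt_eq_top]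
      exact Filter.Eventually.of_forall fun _ => rfl
    rw [FA_Mero_ext_mul, analyticOrderAt_mul (FA_Mero_ext_analyticAt hf z₀)
      (FA_Mero_ext_analyticAt hg z₀)] at h3
    rcases ENat.add_eq_top.mp h3 with h | h
    · exact h1 h
    · exact h2 h

instance FA_Mero_Hol_nontrivial : Nontrivial FA_Mero_Hol :=
  ⟨⟨0, 1, fun h => by
    have := congrFun (congrArg Subtype.val h) ⟨Complex.I, by simp⟩
    simp at this⟩⟩

instance FA_Mero_Hol_isDomain : IsDomain FA_Mero_Hol := NoZeroDivisors.to_isDomain _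

/-- The field of meromorphic functions on `ℍ` (fractions of holomorphic functions). -/
abbrev FA_Mero_Field : Type := FractionRing FA_Mero_Hol


/-! ### Order of vanishing at a point -/

/-- Order of vanishing at `z₀` of a holomorphic function (`0` for the zero function). -/
def FA_Mero_ordHol (z₀ : ℍ) (f : FA_Mero_Hol) : ℕ :=
  analyticOrderNatAt (FA_Mero_ext (f : ℍ → ℂ)) (z₀ : ℂ)

theorem FA_Mero_ordHol_cast (z₀ : ℍ) {f : FA_Mero_Hol} (hf : f ≠ 0) :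
    (FA_Mero_ordHol z₀ f : ℕ∞) = analyticOrderAt (FA_Mero_ext (f : ℍ → ℂ)) (z₀ : ℂ) := by
  unfold FA_Mero_ordHol analyticOrderNatAt
  exact ENat.natCast_toNat (FA_Mero_analyticOrderAt_ne_top f.2 (fun h => hf (Subtype.ext h)) z₀)

theorem FA_Mero_ordHol_mul (z₀ : ℍ) {f g : FA_Mero_Hol} (hf : f ≠ 0) (hg : g ≠ 0) :
    FA_Mero_ordHol z₀ (f * g) = FA_Mero_ordHol z₀ f + FA_Mero_ordHol z₀ g := by
  have h := analyticOrderAt_mul (FA_Mero_ext_analyticAt f.2 z₀) (FA_Mero_ext_analyticAt g.2 z₀)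
  have h' : (FA_Mero_ordHol z₀ (f * g) : ℕ∞) = (FA_Mero_ordHol z₀ f : ℕ∞) + FA_Mero_ordHol z₀ g := by
    rw [FA_Mero_ordHol_cast z₀ (mul_ne_zero hf hg), FA_Mero_ordHol_cast z₀ hf,
      FA_Mero_ordHol_cast z₀ hg]
    exact h
  exact_mod_cast h'

theorem FA_Mero_ordHol_add (z₀ : ℍ) {f g : FA_Mero_Hol} (hfg : f + g ≠ 0) (hf : f ≠ 0)
    (hg : g ≠ 0) :
    min (FA_Mero_ordHol z₀ f) (FA_Mero_ordHol z₀ g) ≤ FA_Mero_ordHol z₀ (f + g) := by
  have h := le_analyticOrderAt_add (f := FA_Mero_ext (f : ℍ → ℂ)) (g := FA_Mero_ext (g : ℍ → ℂ))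
    (z₀ := (z₀ : ℂ))
  have h' : min (FA_Mero_ordHol z₀ f : ℕ∞) (FA_Mero_ordHol z₀ g) ≤ FA_Mero_ordHol z₀ (f + g) := by
    rw [FA_Mero_ordHol_cast z₀ hfg, FA_Mero_ordHol_cast z₀ hf, FA_Mero_ordHol_cast z₀ hg]
    exact h
  rcases min_le_iff.mp h' with h1 | h1
  · exact min_le_iff.mpr (Or.inl (by exact_mod_cast h1))
  · exact min_le_iff.mpr (Or.inr (by exact_mod_cast h1))

theorem FA_Mero_ordHol_eq_zero_iff (z₀ : ℍ) {f : FA_Mero_Hol} (hf : f ≠ 0) :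
    FA_Mero_ordHol z₀ f = 0 ↔ (f : ℍ → ℂ) z₀ ≠ 0 := by
  have h1 : FA_Mero_ordHol z₀ f = 0 ↔ analyticOrderAt (FA_Mero_ext (f : ℍ → ℂ)) (z₀ : ℂ) = 0 := by
    rw [← FA_Mero_ordHol_cast z₀ hf]
    exact_mod_cast Iff.rfl
  rw [h1, analyticOrderAt_eq_zero, FA_Mero_ext_apply]
  constructor
  · rintro (h | h)
    · exact absurd (FA_Mero_ext_analyticAt f.2 z₀) h
    · exact h
  · exact fun h => Or.inr h

theorem FA_Mero_ordHol_algebraMap (z₀ : ℍ) {c : ℂ} (hc : c ≠ 0) :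
    FA_Mero_ordHol z₀ (algebraMap ℂ FA_Mero_Hol c) = 0 := by
  have hne : algebraMap ℂ FA_Mero_Hol c ≠ 0 := by
    intro h
    exact hc ((map_eq_zero_iff _ (algebraMap ℂ FA_Mero_Hol).injective).mp h)
  rw [FA_Mero_ordHol_eq_zero_iff z₀ hne]
  exact hc

theorem FA_Mero_ordHol_one (z₀ : ℍ) : FA_Mero_ordHol z₀ 1 = 0 := by
  rw [FA_Mero_ordHol_eq_zero_iff z₀ one_ne_zero]
  exact one_ne_zero

open Classical in
/-- The function underlying `FA_Mero_valHol`. -/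
def FA_Mero_valHolFun (z₀ : ℍ) (f : FA_Mero_Hol) : ℤᵐ⁰ :=
  if f = 0 then 0 else WithZero.exp (-(FA_Mero_ordHol z₀ f : ℤ))

theorem FA_Mero_valHolFun_zero (z₀ : ℍ) : FA_Mero_valHolFun z₀ 0 = 0 := by
  simp [FA_Mero_valHolFun]

theorem FA_Mero_valHolFun_of_ne (z₀ : ℍ) {f : FA_Mero_Hol} (hf : f ≠ 0) :
    FA_Mero_valHolFun z₀ f = WithZero.exp (-(FA_Mero_ordHol z₀ f : ℤ)) := by
  simp [FA_Mero_valHolFun, hf]

/-- The valuation `exp (- ord_{z₀})` on the ring of holomorphic functions. -/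
def FA_Mero_valHol (z₀ : ℍ) : Valuation FA_Mero_Hol ℤᵐ⁰ where
  toFun := FA_Mero_valHolFun z₀
  map_zero' := FA_Mero_valHolFun_zero z₀
  map_one' := by
    rw [FA_Mero_valHolFun_of_ne z₀ one_ne_zero, FA_Mero_ordHol_one]
    simp
  map_mul' f g := by
    by_cases hf : f = 0
    · simp [hf, FA_Mero_valHolFun_zero]
    by_cases hg : g = 0
    · simp [hg, FA_Mero_valHolFun_zero]
    rw [FA_Mero_valHolFun_of_ne z₀ hf, FA_Mero_valHolFun_of_ne z₀ hg,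
      FA_Mero_valHolFun_of_ne z₀ (mul_ne_zero hf hg), FA_Mero_ordHol_mul z₀ hf hg,
      ← WithZero.exp_add]
    congr 1
    push_cast
    ring
  map_add_le_max' f g := by
    by_cases hf : f = 0
    · simp [hf, FA_Mero_valHolFun_zero]
    by_cases hg : g = 0
    · simp [hg, FA_Mero_valHolFun_zero]
    by_cases hfg : f + g = 0
    · simp [hfg, FA_Mero_valHolFun_zero]
    rw [FA_Mero_valHolFun_of_ne z₀ hf, FA_Mero_valHolFun_of_ne z₀ hg,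
      FA_Mero_valHolFun_of_ne z₀ hfg]
    have h := FA_Mero_ordHol_add z₀ hfg hf hg
    rcases min_le_iff.mp h with h | h
    · exact le_max_of_le_left (WithZero.exp_le_exp.mpr (by omega))
    · exact le_max_of_le_right (WithZero.exp_le_exp.mpr (by omega))

theorem FA_Mero_valHol_apply (z₀ : ℍ) {f : FA_Mero_Hol} (hf : f ≠ 0) :
    FA_Mero_valHol z₀ f = WithZero.exp (-(FA_Mero_ordHol z₀ f : ℤ)) :=
  FA_Mero_valHolFun_of_ne z₀ hf

theorem FA_Mero_valHol_supp (z₀ : ℍ) : (FA_Mero_valHol z₀).supp = ⊥ := by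
  ext f
  rw [Valuation.mem_supp_iff, Ideal.mem_bot]
  constructor
  · intro h
    by_contra hf
    rw [FA_Mero_valHol_apply z₀ hf] at h
    exact WithZero.exp_ne_zero h
  · rintro rfl
    exact map_zero _

/-- The valuation `exp (- ord_{z₀})` on the field of meromorphic functions. -/
def FA_Mero_val (z₀ : ℍ) : Valuation FA_Mero_Field ℤᵐ⁰ :=
  (FA_Mero_valHol z₀).extendToLocalization (S := nonZeroDivisors FA_Mero_Hol)
    (by
      intro f hf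
      rw [Ideal.mem_primeCompl_iff, FA_Mero_valHol_supp, Ideal.mem_bot]
      exact nonZeroDivisors.ne_zero hf) FA_Mero_Field

theorem FA_Mero_val_algebraMap (z₀ : ℍ) (f : FA_Mero_Hol) :
    FA_Mero_val z₀ (algebraMap FA_Mero_Hol FA_Mero_Field f) = FA_Mero_valHol z₀ f :=
  Valuation.extendToLocalization_apply_map_apply _ _ _ _

/-- The order at `z₀` of a meromorphic function (`0` for the zero function). -/
def FA_Mero_ord (z₀ : ℍ) (x : FA_Mero_Field) : ℤ := -(WithZero.log (FA_Mero_val z₀ x))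

theorem FA_Mero_val_ne_zero (z₀ : ℍ) {x : FA_Mero_Field} (hx : x ≠ 0) : FA_Mero_val z₀ x ≠ 0 :=
  (Valuation.ne_zero_iff _).mpr hx

theorem FA_Mero_val_eq_exp (z₀ : ℍ) {x : FA_Mero_Field} (hx : x ≠ 0) :
    FA_Mero_val z₀ x = WithZero.exp (-(FA_Mero_ord z₀ x)) := by
  unfold FA_Mero_ord
  rw [neg_neg, WithZero.exp_log (FA_Mero_val_ne_zero z₀ hx)]

@[simp] theorem FA_Mero_ord_zero (z₀ : ℍ) : FA_Mero_ord z₀ 0 = 0 := by simp [FA_Mero_ord]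

@[simp] theorem FA_Mero_ord_one (z₀ : ℍ) : FA_Mero_ord z₀ 1 = 0 := by simp [FA_Mero_ord]

theorem FA_Mero_ord_mul (z₀ : ℍ) {x y : FA_Mero_Field} (hx : x ≠ 0) (hy : y ≠ 0) :
    FA_Mero_ord z₀ (x * y) = FA_Mero_ord z₀ x + FA_Mero_ord z₀ y := by
  simp only [FA_Mero_ord, map_mul]
  rw [WithZero.log_mul (FA_Mero_val_ne_zero z₀ hx) (FA_Mero_val_ne_zero z₀ hy)]
  ring

theorem FA_Mero_ord_inv (z₀ : ℍ) (x : FA_Mero_Field) :
    FA_Mero_ord z₀ x⁻¹ = -FA_Mero_ord z₀ x := by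
  rcases eq_or_ne x 0 with rfl | hx
  · simp
  · simp only [FA_Mero_ord, map_inv₀, WithZero.log_inv, neg_neg]

theorem FA_Mero_ord_div (z₀ : ℍ) {x y : FA_Mero_Field} (hx : x ≠ 0) (hy : y ≠ 0) :
    FA_Mero_ord z₀ (x / y) = FA_Mero_ord z₀ x - FA_Mero_ord z₀ y := by
  rw [div_eq_mul_inv, FA_Mero_ord_mul z₀ hx (inv_ne_zero hy), FA_Mero_ord_inv]
  ring

theorem FA_Mero_ord_pow (z₀ : ℍ) (x : FA_Mero_Field) (n : ℕ) :
    FA_Mero_ord z₀ (x ^ n) = n * FA_Mero_ord z₀ x := by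
  simp only [FA_Mero_ord, map_pow, WithZero.log_pow]
  ring

theorem FA_Mero_ord_zpow (z₀ : ℍ) (x : FA_Mero_Field) (n : ℤ) :
    FA_Mero_ord z₀ (x ^ n) = n * FA_Mero_ord z₀ x := by
  simp only [FA_Mero_ord, map_zpow₀, WithZero.log_zpow, smul_eq_mul]
  ring

theorem FA_Mero_ord_add (z₀ : ℍ) {x y : FA_Mero_Field} (hxy : x + y ≠ 0) (hx : x ≠ 0)
    (hy : y ≠ 0) :
    min (FA_Mero_ord z₀ x) (FA_Mero_ord z₀ y) ≤ FA_Mero_ord z₀ (x + y) := by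
  have h := (FA_Mero_val z₀).map_add x y
  rw [FA_Mero_val_eq_exp z₀ hxy, FA_Mero_val_eq_exp z₀ hx, FA_Mero_val_eq_exp z₀ hy] at h
  rcases le_max_iff.mp h with h | h
  · have := WithZero.exp_le_exp.mp h
    exact min_le_iff.mpr (Or.inl (by omega))
  · have := WithZero.exp_le_exp.mp h
    exact min_le_iff.mpr (Or.inr (by omega))

theorem FA_Mero_ord_algebraMap_hol (z₀ : ℍ) (f : FA_Mero_Hol) :
    FA_Mero_ord z₀ (algebraMap FA_Mero_Hol FA_Mero_Field f) = FA_Mero_ordHol z₀ f := by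
  rcases eq_or_ne f 0 with rfl | hf
  · have : analyticOrderAt (0 : ℂ → ℂ) (z₀ : ℂ) = ⊤ :=
      analyticOrderAt_eq_top.mpr (Filter.Eventually.of_forall fun _ => rfl)
    rw [map_zero, FA_Mero_ord_zero, FA_Mero_ordHol,
      show ((0 : FA_Mero_Hol) : ℍ → ℂ) = 0 from rfl, FA_Mero_ext_zero, analyticOrderNatAt, this]
    rfl
  · rw [FA_Mero_ord, FA_Mero_val_algebraMap, FA_Mero_valHol_apply z₀ hf, WithZero.log_exp, neg_neg]

theorem FA_Mero_ord_algebraMap (z₀ : ℍ) (c : ℂ) :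
    FA_Mero_ord z₀ (algebraMap ℂ FA_Mero_Field c) = 0 := by
  rcases eq_or_ne c 0 with rfl | hc
  · simp
  · rw [IsScalarTower.algebraMap_apply ℂ FA_Mero_Hol FA_Mero_Field, FA_Mero_ord_algebraMap_hol,
      FA_Mero_ordHol_algebraMap z₀ hc]
    rfl

theorem FA_Mero_val_le_one_iff (z₀ : ℍ) {x : FA_Mero_Field} :
    FA_Mero_val z₀ x ≤ 1 ↔ x = 0 ∨ 0 ≤ FA_Mero_ord z₀ x := by
  rcases eq_or_ne x 0 with rfl | hx
  · simp
  · rw [FA_Mero_val_eq_exp z₀ hx, ← WithZero.exp_zero, WithZero.exp_le_exp]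
    constructor
    · intro h; right; omega
    · rintro (h | h)
      · exact absurd h hx
      · omega


/-! ### The action of `SL(2, ℤ)` -/

theorem FA_Mero_mdiff_smul (γ : SL(2, ℤ)) : MDiff (fun z : ℍ => γ • z) := by
  have h : (0 : ℝ) < ((Matrix.SpecialLinearGroup.mapGL ℝ γ : GL (Fin 2) ℝ)).det.val := by
    simp
  exact mdifferentiable_smul h

/-- `SL(2, ℤ)` acts on holomorphic functions by `(γ • f) z = f (γ⁻¹ • z)`. -/
instance FA_Mero_Hol_mulSemiringAction : MulSemiringAction SL(2, ℤ) FA_Mero_Hol where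
  smul γ f := ⟨fun z => (f : ℍ → ℂ) (γ⁻¹ • z), f.2.comp (FA_Mero_mdiff_smul γ⁻¹)⟩
  one_smul f := by
    apply Subtype.ext
    funext z
    show (f : ℍ → ℂ) ((1 : SL(2, ℤ))⁻¹ • z) = (f : ℍ → ℂ) z
    rw [inv_one, one_smul]
  mul_smul γ δ f := by
    apply Subtype.ext
    funext z
    show (f : ℍ → ℂ) ((γ * δ)⁻¹ • z) = (f : ℍ → ℂ) (δ⁻¹ • γ⁻¹ • z)
    rw [mul_inv_rev, mul_smul]
  smul_zero _ := rfl
  smul_add _ _ _ := rfl
  smul_one _ := rfl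
  smul_mul _ _ _ := rfl

theorem FA_Mero_Hol_smul_apply (γ : SL(2, ℤ)) (f : FA_Mero_Hol) (z : ℍ) :
    ((γ • f : FA_Mero_Hol) : ℍ → ℂ) z = (f : ℍ → ℂ) (γ⁻¹ • z) := rfl

instance FA_Mero_Hol_smulCommClass : SMulCommClass SL(2, ℤ) ℂ FA_Mero_Hol where
  smul_comm _ _ _ := rfl

instance FA_Mero_Field_mulSemiringAction : MulSemiringAction SL(2, ℤ) FA_Mero_Field :=
  IsFractionRing.mulSemiringAction SL(2, ℤ) FA_Mero_Hol FA_Mero_Field

instance FA_Mero_Field_smulDistribClass : SMulDistribClass SL(2, ℤ) FA_Mero_Hol FA_Mero_Field :=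
  IsFractionRing.smulDistribClass SL(2, ℤ) FA_Mero_Hol FA_Mero_Field

theorem FA_Mero_smul_algebraMap (γ : SL(2, ℤ)) (f : FA_Mero_Hol) :
    γ • (algebraMap FA_Mero_Hol FA_Mero_Field f) = algebraMap FA_Mero_Hol FA_Mero_Field (γ • f) :=
  (algebraMap.coe_smul' γ f FA_Mero_Field).symm

theorem FA_Mero_smul_algebraMap_complex (γ : SL(2, ℤ)) (c : ℂ) :
    γ • (algebraMap ℂ FA_Mero_Field c) = algebraMap ℂ FA_Mero_Field c := by
  rw [IsScalarTower.algebraMap_apply ℂ FA_Mero_Hol FA_Mero_Field, FA_Mero_smul_algebraMap]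
  rfl

instance FA_Mero_Field_smulCommClass : SMulCommClass SL(2, ℤ) ℂ FA_Mero_Field where
  smul_comm γ c x := by
    rw [Algebra.smul_def, Algebra.smul_def, smul_mul', FA_Mero_smul_algebraMap_complex]


/-- The holomorphic function `z ↦ γ • z` on `ℍ`. -/
def FA_Mero_moebius (γ : SL(2, ℤ)) : FA_Mero_Hol :=
  ⟨fun z => ((γ • z : ℍ) : ℂ), mdifferentiable_coe.comp (FA_Mero_mdiff_smul γ)⟩

theorem FA_Mero_ext_smul (γ : SL(2, ℤ)) (f : FA_Mero_Hol) :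
    FA_Mero_ext ((γ • f : FA_Mero_Hol) : ℍ → ℂ)
      = FA_Mero_ext (f : ℍ → ℂ) ∘ FA_Mero_ext (FA_Mero_moebius γ⁻¹ : ℍ → ℂ) := by
  funext z
  show (f : ℍ → ℂ) (γ⁻¹ • ofComplex z) = (f : ℍ → ℂ) (ofComplex ((γ⁻¹ • ofComplex z : ℍ) : ℂ))
  rw [ofComplex_apply]

theorem FA_Mero_analyticOrderAt_smul_ge (γ : SL(2, ℤ)) (f : FA_Mero_Hol) (z₀ : ℍ) :
    analyticOrderAt (FA_Mero_ext (f : ℍ → ℂ)) ((γ⁻¹ • z₀ : ℍ) : ℂ)
      ≤ analyticOrderAt (FA_Mero_ext ((γ • f : FA_Mero_Hol) : ℍ → ℂ)) (z₀ : ℂ) := by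
  have hμ : FA_Mero_ext (FA_Mero_moebius γ⁻¹ : ℍ → ℂ) (z₀ : ℂ) = ((γ⁻¹ • z₀ : ℍ) : ℂ) := by
    rw [FA_Mero_ext_apply]; rfl
  have hf : AnalyticAt ℂ (FA_Mero_ext (f : ℍ → ℂ))
      (FA_Mero_ext (FA_Mero_moebius γ⁻¹ : ℍ → ℂ) (z₀ : ℂ)) := by
    rw [hμ]; exact FA_Mero_ext_analyticAt f.2 _
  have hg : AnalyticAt ℂ (FA_Mero_ext (FA_Mero_moebius γ⁻¹ : ℍ → ℂ)) (z₀ : ℂ) :=
    FA_Mero_ext_analyticAt (FA_Mero_moebius γ⁻¹).2 z₀
  rw [FA_Mero_ext_smul, hf.analyticOrderAt_comp hg, hμ]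
  have h1 : analyticOrderAt (fun x => FA_Mero_ext (FA_Mero_moebius γ⁻¹ : ℍ → ℂ) x
      - ((γ⁻¹ • z₀ : ℍ) : ℂ)) (z₀ : ℂ) ≠ 0 := by
    rw [analyticOrderAt_ne_zero]
    refine ⟨hg.sub analyticAt_const, ?_⟩
    rw [hμ, sub_self]
  have h2 : (1 : ℕ∞) ≤ analyticOrderAt (fun x => FA_Mero_ext (FA_Mero_moebius γ⁻¹ : ℍ → ℂ) x
      - ((γ⁻¹ • z₀ : ℍ) : ℂ)) (z₀ : ℂ) := Order.one_le_iff_ne_zero.mpr h1
  calc analyticOrderAt (FA_Mero_ext (f : ℍ → ℂ)) ((γ⁻¹ • z₀ : ℍ) : ℂ)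
      = analyticOrderAt (FA_Mero_ext (f : ℍ → ℂ)) ((γ⁻¹ • z₀ : ℍ) : ℂ) * 1 := (mul_one _).symm
    _ ≤ _ := mul_le_mul_right h2 _

theorem FA_Mero_analyticOrderAt_smul (γ : SL(2, ℤ)) (f : FA_Mero_Hol) (z₀ : ℍ) :
    analyticOrderAt (FA_Mero_ext ((γ • f : FA_Mero_Hol) : ℍ → ℂ)) (z₀ : ℂ)
      = analyticOrderAt (FA_Mero_ext (f : ℍ → ℂ)) ((γ⁻¹ • z₀ : ℍ) : ℂ) := by
  apply le_antisymm
  · have h := FA_Mero_analyticOrderAt_smul_ge γ⁻¹ (γ • f) (γ⁻¹ • z₀)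
    rw [inv_smul_smul, inv_smul_smul] at h
    exact h
  · exact FA_Mero_analyticOrderAt_smul_ge γ f z₀

theorem FA_Mero_ordHol_smul (γ : SL(2, ℤ)) (f : FA_Mero_Hol) (z₀ : ℍ) :
    FA_Mero_ordHol z₀ (γ • f) = FA_Mero_ordHol (γ⁻¹ • z₀) f := by
  unfold FA_Mero_ordHol analyticOrderNatAt
  rw [FA_Mero_analyticOrderAt_smul]

theorem FA_Mero_algebraMap_injective :
    Function.Injective (algebraMap FA_Mero_Hol FA_Mero_Field) :=
  IsFractionRing.injective FA_Mero_Hol FA_Mero_Field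

theorem FA_Mero_algebraMap_ne_zero {f : FA_Mero_Hol} (hf : f ≠ 0) :
    algebraMap FA_Mero_Hol FA_Mero_Field f ≠ 0 :=
  (map_ne_zero_iff _ FA_Mero_algebraMap_injective).mpr hf

theorem FA_Mero_smul_ne_zero_hol (γ : SL(2, ℤ)) {f : FA_Mero_Hol} (hf : f ≠ 0) : γ • f ≠ 0 := by
  intro h
  apply hf
  have := congrArg (fun y => γ⁻¹ • y) h
  simpa using this

theorem FA_Mero_smul_ne_zero (γ : SL(2, ℤ)) {x : FA_Mero_Field} (hx : x ≠ 0) : γ • x ≠ 0 := by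
  intro h
  apply hx
  have := congrArg (fun y => γ⁻¹ • y) h
  simpa using this

theorem FA_Mero_ord_smul (γ : SL(2, ℤ)) (x : FA_Mero_Field) (z₀ : ℍ) :
    FA_Mero_ord z₀ (γ • x) = FA_Mero_ord (γ⁻¹ • z₀) x := by
  obtain ⟨a, b, hb, rfl⟩ := IsFractionRing.div_surjective (A := FA_Mero_Hol) x
  rcases eq_or_ne a 0 with rfl | ha
  · simp
  have hb0 : b ≠ 0 := nonZeroDivisors.ne_zero hb
  have ha' := FA_Mero_algebraMap_ne_zero ha
  have hb' := FA_Mero_algebraMap_ne_zero hb0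
  have hγa' := FA_Mero_algebraMap_ne_zero (FA_Mero_smul_ne_zero_hol γ ha)
  have hγb' := FA_Mero_algebraMap_ne_zero (FA_Mero_smul_ne_zero_hol γ hb0)
  rw [smul_div₀', FA_Mero_smul_algebraMap, FA_Mero_smul_algebraMap,
    FA_Mero_ord_div _ hγa' hγb', FA_Mero_ord_div _ ha' hb', FA_Mero_ord_algebraMap_hol,
    FA_Mero_ord_algebraMap_hol, FA_Mero_ord_algebraMap_hol, FA_Mero_ord_algebraMap_hol,
    FA_Mero_ordHol_smul, FA_Mero_ordHol_smul]

theorem FA_Mero_val_smul (γ : SL(2, ℤ)) (x : FA_Mero_Field) (z₀ : ℍ) :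
    FA_Mero_val z₀ (γ • x) = FA_Mero_val (γ⁻¹ • z₀) x := by
  rcases eq_or_ne x 0 with rfl | hx
  · simp
  rw [FA_Mero_val_eq_exp _ (FA_Mero_smul_ne_zero γ hx), FA_Mero_val_eq_exp _ hx,
    FA_Mero_ord_smul]

end Fermat.Agent.Mero
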