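import Mathlib
import Fermat.Agent.Lib.Mero

/-!
# The normalized derivative `D = (2πi)⁻¹ d/dz` on holomorphic functions on `ℍ`, and orders.
-/

set_option autoImplicit false

noncomputable section

open UpperHalfPlane hiding I
open Complex WithZero Derivative
open scoped MatrixGroups Manifold Topology Real

namespace Fermat.Agent.Mero

/-- The normalized derivative of a holomorphic function, as a holomorphic function. -/
def FA_Mero_DHol (f : FA_Mero_Hol) : FA_Mero_Hol :=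
  ⟨D (f : ℍ → ℂ), normalizedDerivOfComplex_mdifferentiable f.2⟩

theorem FA_Mero_DHol_apply (f : FA_Mero_Hol) (z : ℍ) :
    (FA_Mero_DHol f : ℍ → ℂ) z = D (f : ℍ → ℂ) z := rfl

theorem FA_Mero_DHol_add (f g : FA_Mero_Hol) :
    FA_Mero_DHol (f + g) = FA_Mero_DHol f + FA_Mero_DHol g :=
  Subtype.ext (normalizedDerivOfComplex_add _ _ f.2 g.2)

theorem FA_Mero_DHol_mul (f g : FA_Mero_Hol) :
    FA_Mero_DHol (f * g) = FA_Mero_DHol f * g + f * FA_Mero_DHol g :=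
  Subtype.ext (normalizedDerivOfComplex_mul _ _ f.2 g.2)

theorem FA_Mero_DHol_algebraMap (c : ℂ) : FA_Mero_DHol (algebraMap ℂ FA_Mero_Hol c) = 0 :=
  Subtype.ext (normalizedDerivOfComplex_const c)

theorem FA_Mero_DHol_smul (c : ℂ) (f : FA_Mero_Hol) :
    FA_Mero_DHol (c • f) = c • FA_Mero_DHol f :=
  Subtype.ext (normalizedDerivOfComplex_smul c _ f.2)

/-- `D` as a derivation of the ring of holomorphic functions. -/
def FA_Mero_DerHol : Derivation ℂ FA_Mero_Hol FA_Mero_Hol where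
  toFun := FA_Mero_DHol
  map_add' := FA_Mero_DHol_add
  map_smul' := FA_Mero_DHol_smul
  map_one_eq_zero' := by
    have := FA_Mero_DHol_algebraMap 1
    simpa using this
  leibniz' f g := by
    show FA_Mero_DHol (f * g) = f • FA_Mero_DHol g + g • FA_Mero_DHol f
    rw [FA_Mero_DHol_mul, smul_eq_mul, smul_eq_mul]
    ring

@[simp] theorem FA_Mero_DerHol_apply (f : FA_Mero_Hol) : FA_Mero_DerHol f = FA_Mero_DHol f := rfl

theorem FA_Mero_ext_DHol_eventuallyEq (f : FA_Mero_Hol) (z₀ : ℍ) :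
    FA_Mero_ext (FA_Mero_DHol f : ℍ → ℂ) =ᶠ[𝓝 (z₀ : ℂ)]
      fun w => (2 * π * I)⁻¹ * deriv (FA_Mero_ext (f : ℍ → ℂ)) w := by
  filter_upwards [isOpen_upperHalfPlaneSet.mem_nhds z₀.2] with w hw
  rw [FA_Mero_ext_apply_of_im_pos _ hw]
  rfl

/-- The order of the derivative: `ord (D f) + 1 = ord (f - f z₀)`. -/
theorem FA_Mero_analyticOrderAt_DHol (f : FA_Mero_Hol) (z₀ : ℍ) :
    analyticOrderAt (FA_Mero_ext (FA_Mero_DHol f : ℍ → ℂ)) (z₀ : ℂ) + 1
      = analyticOrderAt (fun w => FA_Mero_ext (f : ℍ → ℂ) w - (f : ℍ → ℂ) z₀) (z₀ : ℂ) := by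
  have han := FA_Mero_ext_analyticAt f.2 z₀
  have h1 := han.analyticOrderAt_deriv_add_one
  rw [FA_Mero_ext_apply] at h1
  rw [← h1, analyticOrderAt_congr (FA_Mero_ext_DHol_eventuallyEq f z₀)]
  congr 1
  have hpi : ((2 * π * I : ℂ))⁻¹ ≠ 0 := by
    simp [Real.pi_ne_zero]
  have h2 : (fun w => (2 * π * I)⁻¹ * deriv (FA_Mero_ext (f : ℍ → ℂ)) w)
      = (fun _ : ℂ => ((2 * π * I : ℂ))⁻¹) * deriv (FA_Mero_ext (f : ℍ → ℂ)) := rfl
  rw [h2, analyticOrderAt_mul analyticAt_const han.deriv]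
  have h3 : analyticOrderAt (fun _ : ℂ => ((2 * π * I : ℂ))⁻¹) (z₀ : ℂ) = 0 := by
    rw [analyticOrderAt_eq_zero]
    exact Or.inr hpi
  rw [h3, zero_add]

theorem FA_Mero_ext_sub_const (f : FA_Mero_Hol) (c : ℂ) :
    FA_Mero_ext ((f - algebraMap ℂ FA_Mero_Hol c : FA_Mero_Hol) : ℍ → ℂ)
      = fun w => FA_Mero_ext (f : ℍ → ℂ) w - c := rfl

/-- If `f` is not constant then `ord (D f) + 1 = ord (f - f z₀)` (as natural numbers). -/
theorem FA_Mero_ordHol_DHol (f : FA_Mero_Hol) (z₀ : ℍ)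
    (hf : f - algebraMap ℂ FA_Mero_Hol ((f : ℍ → ℂ) z₀) ≠ 0) :
    FA_Mero_ordHol z₀ (FA_Mero_DHol f) + 1
      = FA_Mero_ordHol z₀ (f - algebraMap ℂ FA_Mero_Hol ((f : ℍ → ℂ) z₀)) := by
  have h := FA_Mero_analyticOrderAt_DHol f z₀
  rw [← FA_Mero_ext_sub_const, ← FA_Mero_ordHol_cast z₀ hf] at h
  have hD : FA_Mero_DHol f ≠ 0 := by
    intro h0
    rw [h0] at h
    have : analyticOrderAt (FA_Mero_ext ((0 : FA_Mero_Hol) : ℍ → ℂ)) (z₀ : ℂ) = ⊤ := by
      rw [analyticOrderAt_eq_top]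
      exact Filter.Eventually.of_forall fun _ => rfl
    rw [this] at h
    simp at h
  rw [← FA_Mero_ordHol_cast z₀ hD] at h
  exact_mod_cast h

theorem FA_Mero_DHol_ne_zero (f : FA_Mero_Hol) (z₀ : ℍ)
    (hf : f - algebraMap ℂ FA_Mero_Hol ((f : ℍ → ℂ) z₀) ≠ 0) : FA_Mero_DHol f ≠ 0 := by
  intro h0
  have h := FA_Mero_analyticOrderAt_DHol f z₀
  rw [← FA_Mero_ext_sub_const, ← FA_Mero_ordHol_cast z₀ hf, h0] at h
  have : analyticOrderAt (FA_Mero_ext ((0 : FA_Mero_Hol) : ℍ → ℂ)) (z₀ : ℂ) = ⊤ := by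
    rw [analyticOrderAt_eq_top]
    exact Filter.Eventually.of_forall fun _ => rfl
  rw [this] at h
  simp at h

end Fermat.Agent.Mero
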