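import Mathlib
import Fermat.Agent.Lib.Mero2

/-!
# The derivation `D` on the field of meromorphic functions on `ℍ`
-/

set_option autoImplicit false

noncomputable section

open UpperHalfPlane hiding I
open Complex WithZero Derivative
open scoped MatrixGroups Manifold Topology Real

namespace Fermat.Agent.Mero

local notation "ι" => algebraMap FA_Mero_Hol FA_Mero_Field

/-- The value `(D a · b - a · D b) / b²` attached to a fraction `a / b`. -/
def FA_Mero_Dfrac (a b : FA_Mero_Hol) : FA_Mero_Field :=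
  (ι (FA_Mero_DHol a) * ι b - ι a * ι (FA_Mero_DHol b)) / (ι b) ^ 2

theorem FA_Mero_Dfrac_wd {a b c d : FA_Mero_Hol} (hb : b ≠ 0) (hd : d ≠ 0)
    (h : ι a / ι b = ι c / ι d) : FA_Mero_Dfrac a b = FA_Mero_Dfrac c d := by
  have hb' := FA_Mero_algebraMap_ne_zero hb
  have hd' := FA_Mero_algebraMap_ne_zero hd
  have h1 : a * d = b * c := by
    apply FA_Mero_algebraMap_injective
    rw [map_mul, map_mul]
    field_simp at h
    linear_combination h
  have h2 : FA_Mero_DHol (a * d) = FA_Mero_DHol (b * c) := by rw [h1]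
  rw [FA_Mero_DHol_mul, FA_Mero_DHol_mul] at h2
  have h1' : ι a * ι d = ι b * ι c := by rw [← map_mul, ← map_mul, h1]
  have h2' : ι (FA_Mero_DHol a) * ι d + ι a * ι (FA_Mero_DHol d)
      = ι (FA_Mero_DHol b) * ι c + ι b * ι (FA_Mero_DHol c) := by
    rw [← map_mul, ← map_mul, ← map_add, h2, map_add, map_mul, map_mul]
  unfold FA_Mero_Dfrac
  rw [div_eq_div_iff (pow_ne_zero 2 hb') (pow_ne_zero 2 hd')]
  linear_combination (ι b * ι d) * h2' - (ι (FA_Mero_DHol b) * ι d + ι b * ι (FA_Mero_DHol d)) * h1'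

/-- The underlying function of the derivation `D` on meromorphic functions. -/
def FA_Mero_Dfun (x : FA_Mero_Field) : FA_Mero_Field :=
  FA_Mero_Dfrac (IsFractionRing.div_surjective (A := FA_Mero_Hol) x).choose
    (IsFractionRing.div_surjective (A := FA_Mero_Hol) x).choose_spec.choose

theorem FA_Mero_Dfun_div (a : FA_Mero_Hol) {b : FA_Mero_Hol} (hb : b ≠ 0) :
    FA_Mero_Dfun (ι a / ι b) = FA_Mero_Dfrac a b := by
  unfold FA_Mero_Dfun
  have hspec := (IsFractionRing.div_surjective (A := FA_Mero_Hol) (ι a / ι b)).choose_spec.choose_spec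
  exact FA_Mero_Dfrac_wd (nonZeroDivisors.ne_zero hspec.1) hb hspec.2

theorem FA_Mero_Dfun_algebraMap (a : FA_Mero_Hol) :
    FA_Mero_Dfun (ι a) = ι (FA_Mero_DHol a) := by
  have h := FA_Mero_Dfun_div a (one_ne_zero (α := FA_Mero_Hol))
  rw [map_one, div_one] at h
  rw [h]
  unfold FA_Mero_Dfrac
  have h1 : FA_Mero_DHol 1 = 0 := by
    have := FA_Mero_DHol_algebraMap 1
    simpa using this
  rw [h1, map_zero, map_one]
  simp

theorem FA_Mero_Dfun_add (x y : FA_Mero_Field) :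
    FA_Mero_Dfun (x + y) = FA_Mero_Dfun x + FA_Mero_Dfun y := by
  obtain ⟨a, b, hb, rfl⟩ := IsFractionRing.div_surjective (A := FA_Mero_Hol) x
  obtain ⟨c, d, hd, rfl⟩ := IsFractionRing.div_surjective (A := FA_Mero_Hol) y
  have hb0 := nonZeroDivisors.ne_zero hb
  have hd0 := nonZeroDivisors.ne_zero hd
  have hb' := FA_Mero_algebraMap_ne_zero hb0
  have hd' := FA_Mero_algebraMap_ne_zero hd0
  have hsum : ι a / ι b + ι c / ι d = ι (a * d + b * c) / ι (b * d) := by
    rw [map_add, map_mul, map_mul, map_mul]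
    field_simp
  rw [hsum, FA_Mero_Dfun_div _ (mul_ne_zero hb0 hd0), FA_Mero_Dfun_div _ hb0,
    FA_Mero_Dfun_div _ hd0]
  unfold FA_Mero_Dfrac
  rw [FA_Mero_DHol_add, FA_Mero_DHol_mul, FA_Mero_DHol_mul, FA_Mero_DHol_mul]
  simp only [map_add, map_mul]
  field_simp
  ring

theorem FA_Mero_Dfun_mul (x y : FA_Mero_Field) :
    FA_Mero_Dfun (x * y) = x * FA_Mero_Dfun y + y * FA_Mero_Dfun x := by
  obtain ⟨a, b, hb, rfl⟩ := IsFractionRing.div_surjective (A := FA_Mero_Hol) x
  obtain ⟨c, d, hd, rfl⟩ := IsFractionRing.div_surjective (A := FA_Mero_Hol) y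
  have hb0 := nonZeroDivisors.ne_zero hb
  have hd0 := nonZeroDivisors.ne_zero hd
  have hb' := FA_Mero_algebraMap_ne_zero hb0
  have hd' := FA_Mero_algebraMap_ne_zero hd0
  have hprod : ι a / ι b * (ι c / ι d) = ι (a * c) / ι (b * d) := by
    rw [map_mul, map_mul]
    field_simp
  rw [hprod, FA_Mero_Dfun_div _ (mul_ne_zero hb0 hd0), FA_Mero_Dfun_div _ hb0,
    FA_Mero_Dfun_div _ hd0]
  unfold FA_Mero_Dfrac
  rw [FA_Mero_DHol_mul, FA_Mero_DHol_mul]
  simp only [map_add, map_mul]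
  field_simp
  ring

theorem FA_Mero_Dfun_const (c : ℂ) : FA_Mero_Dfun (algebraMap ℂ FA_Mero_Field c) = 0 := by
  rw [IsScalarTower.algebraMap_apply ℂ FA_Mero_Hol FA_Mero_Field, FA_Mero_Dfun_algebraMap,
    FA_Mero_DHol_algebraMap, map_zero]

/-- `D` as a derivation of the field of meromorphic functions on `ℍ`. -/
def FA_Mero_Der : Derivation ℂ FA_Mero_Field FA_Mero_Field where
  toFun := FA_Mero_Dfun
  map_add' := FA_Mero_Dfun_add
  map_smul' c x := by
    show FA_Mero_Dfun (c • x) = c • FA_Mero_Dfun x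
    rw [Algebra.smul_def, Algebra.smul_def, FA_Mero_Dfun_mul, FA_Mero_Dfun_const]
    ring
  map_one_eq_zero' := by
    show FA_Mero_Dfun 1 = 0
    have := FA_Mero_Dfun_const 1
    simpa using this
  leibniz' x y := by
    show FA_Mero_Dfun (x * y) = x • FA_Mero_Dfun y + y • FA_Mero_Dfun x
    rw [FA_Mero_Dfun_mul, smul_eq_mul, smul_eq_mul]

theorem FA_Mero_Der_apply (x : FA_Mero_Field) : FA_Mero_Der x = FA_Mero_Dfun x := rfl

theorem FA_Mero_Der_algebraMap (a : FA_Mero_Hol) : FA_Mero_Der (ι a) = ι (FA_Mero_DHol a) :=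
  FA_Mero_Dfun_algebraMap a

theorem FA_Mero_Der_div (a : FA_Mero_Hol) {b : FA_Mero_Hol} (hb : b ≠ 0) :
    FA_Mero_Der (ι a / ι b)
      = (ι (FA_Mero_DHol a) * ι b - ι a * ι (FA_Mero_DHol b)) / (ι b) ^ 2 :=
  FA_Mero_Dfun_div a hb

end Fermat.Agent.Mero
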