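import Mathlib
import Fermat.Agent.Lib.Mero3

/-!
# Orders of derivatives, and the holomorphy criterion
-/

set_option autoImplicit false

noncomputable section

open UpperHalfPlane hiding I
open Complex WithZero Derivative
open scoped MatrixGroups Manifold Topology Real

namespace Fermat.Agent.Mero

local notation "ι" => algebraMap FA_Mero_Hol FA_Mero_Field

/-- `ord a ≤ ord (D a) + 1` for holomorphic `a` with `D a ≠ 0`. -/
theorem FA_Mero_ordHol_le_DHol (z₀ : ℍ) (a : FA_Mero_Hol) (hD : FA_Mero_DHol a ≠ 0) :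
    FA_Mero_ordHol z₀ a ≤ FA_Mero_ordHol z₀ (FA_Mero_DHol a) + 1 := by
  have ha : a ≠ 0 := by
    rintro rfl
    apply hD
    have := FA_Mero_DHol_algebraMap 0
    simpa using this
  have hsub : a - algebraMap ℂ FA_Mero_Hol ((a : ℍ → ℂ) z₀) ≠ 0 := by
    intro h
    apply hD
    have h1 : a = algebraMap ℂ FA_Mero_Hol ((a : ℍ → ℂ) z₀) := sub_eq_zero.mp h
    rw [h1, FA_Mero_DHol_algebraMap]
  have h := FA_Mero_ordHol_DHol a z₀ hsub
  by_cases h0 : (a : ℍ → ℂ) z₀ = 0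
  · rw [h0, map_zero, sub_zero] at h
    omega
  · have : FA_Mero_ordHol z₀ a = 0 := (FA_Mero_ordHol_eq_zero_iff z₀ ha).mpr h0
    omega

theorem FA_Mero_valHol_DHol_le (z₀ : ℍ) (a : FA_Mero_Hol) :
    FA_Mero_valHol z₀ (FA_Mero_DHol a) ≤ FA_Mero_valHol z₀ a * WithZero.exp (1 : ℤ) := by
  by_cases hD : FA_Mero_DHol a = 0
  · rw [hD, map_zero]
    exact zero_le
  have ha : a ≠ 0 := by
    rintro rfl
    apply hD
    have := FA_Mero_DHol_algebraMap 0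
    simpa using this
  rw [FA_Mero_valHol_apply z₀ hD, FA_Mero_valHol_apply z₀ ha, ← WithZero.exp_add,
    WithZero.exp_le_exp]
  have := FA_Mero_ordHol_le_DHol z₀ a hD
  omega

/-- `val (D x) ≤ val x · exp 1`, i.e. `ord (D x) ≥ ord x - 1`. -/
theorem FA_Mero_val_Der_le (z₀ : ℍ) (x : FA_Mero_Field) :
    FA_Mero_val z₀ (FA_Mero_Der x) ≤ FA_Mero_val z₀ x * WithZero.exp (1 : ℤ) := by
  obtain ⟨a, b, hb, rfl⟩ := IsFractionRing.div_surjective (A := FA_Mero_Hol) x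
  have hb0 := nonZeroDivisors.ne_zero hb
  have hb' := FA_Mero_algebraMap_ne_zero hb0
  have hvb : FA_Mero_val z₀ (ι b) ≠ 0 := FA_Mero_val_ne_zero z₀ hb'
  rw [FA_Mero_Der_div a hb0, map_div₀, map_div₀, map_pow]
  have h1 : FA_Mero_val z₀ (ι (FA_Mero_DHol a) * ι b - ι a * ι (FA_Mero_DHol b))
      ≤ max (FA_Mero_val z₀ (ι (FA_Mero_DHol a) * ι b))
          (FA_Mero_val z₀ (ι a * ι (FA_Mero_DHol b))) :=
    Valuation.map_sub _ _ _
  have ha := FA_Mero_valHol_DHol_le z₀ a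
  have hbD := FA_Mero_valHol_DHol_le z₀ b
  rw [← FA_Mero_val_algebraMap, ← FA_Mero_val_algebraMap] at ha hbD
  have h2 : FA_Mero_val z₀ (ι (FA_Mero_DHol a) * ι b)
      ≤ FA_Mero_val z₀ (ι a) * FA_Mero_val z₀ (ι b) * WithZero.exp (1 : ℤ) := by
    rw [map_mul]
    calc FA_Mero_val z₀ (ι (FA_Mero_DHol a)) * FA_Mero_val z₀ (ι b)
        ≤ (FA_Mero_val z₀ (ι a) * WithZero.exp (1 : ℤ)) * FA_Mero_val z₀ (ι b) :=
          mul_le_mul_left ha _
      _ = _ := by ac_rfl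
  have h3 : FA_Mero_val z₀ (ι a * ι (FA_Mero_DHol b))
      ≤ FA_Mero_val z₀ (ι a) * FA_Mero_val z₀ (ι b) * WithZero.exp (1 : ℤ) := by
    rw [map_mul]
    calc FA_Mero_val z₀ (ι a) * FA_Mero_val z₀ (ι (FA_Mero_DHol b))
        ≤ FA_Mero_val z₀ (ι a) * (FA_Mero_val z₀ (ι b) * WithZero.exp (1 : ℤ)) :=
          mul_le_mul_right hbD _
      _ = _ := by ac_rfl
  have key := h1.trans (max_le h2 h3)
  calc FA_Mero_val z₀ (ι (FA_Mero_DHol a) * ι b - ι a * ι (FA_Mero_DHol b))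
        / FA_Mero_val z₀ (ι b) ^ 2
      ≤ (FA_Mero_val z₀ (ι a) * FA_Mero_val z₀ (ι b) * WithZero.exp (1 : ℤ))
        / FA_Mero_val z₀ (ι b) ^ 2 := by
        rw [div_eq_mul_inv, div_eq_mul_inv]
        exact mul_le_mul_left key _
    _ = FA_Mero_val z₀ (ι a) / FA_Mero_val z₀ (ι b) * WithZero.exp (1 : ℤ) := by
        rw [div_eq_mul_inv, div_eq_mul_inv, pow_two, mul_inv]
        calc FA_Mero_val z₀ (ι a) * FA_Mero_val z₀ (ι b) * WithZero.exp (1 : ℤ)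
              * ((FA_Mero_val z₀ (ι b))⁻¹ * (FA_Mero_val z₀ (ι b))⁻¹)
            = FA_Mero_val z₀ (ι a) * (FA_Mero_val z₀ (ι b) * (FA_Mero_val z₀ (ι b))⁻¹)
              * (FA_Mero_val z₀ (ι b))⁻¹ * WithZero.exp (1 : ℤ) := by ac_rfl
          _ = _ := by rw [mul_inv_cancel₀ hvb, mul_one]

end Fermat.Agent.Mero
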