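import Mathlib
import Fermat.Agent.Lib.Mero4

/-!
# The holomorphy criterion

A meromorphic function (element of `FA_Mero_Field`) all of whose valuations are `≤ 1` is
holomorphic.
-/

set_option autoImplicit false

noncomputable section

open UpperHalfPlane hiding I
open Complex WithZero Filter
open scoped MatrixGroups Manifold Topology Real

namespace Fermat.Agent.Mero

local notation "ι" => algebraMap FA_Mero_Hol FA_Mero_Field

theorem FA_Mero_ofComplex_coe_of_mem {z : ℂ} (hz : z ∈ upperHalfPlaneSet) :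
    ((ofComplex z : ℍ) : ℂ) = z := by
  have hz' : 0 < z.im := hz
  rw [ofComplex_apply_of_im_pos hz']

/-- A function analytic on the upper half plane, restricted to `ℍ`, is holomorphic. -/
theorem FA_Mero_mdiff_of_analyticOnNhd {H : ℂ → ℂ} (hH : AnalyticOnNhd ℂ H upperHalfPlaneSet) :
    MDiff (fun z : ℍ => H (z : ℂ)) := by
  rw [UpperHalfPlane.mdifferentiable_iff]
  refine hH.differentiableOn.congr ?_
  intro z hz
  show H ((ofComplex z : ℍ) : ℂ) = H z
  rw [FA_Mero_ofComplex_coe_of_mem hz]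

theorem FA_Mero_meromorphicOrderAt_ext (z₀ : ℍ) {a : FA_Mero_Hol} (ha : a ≠ 0) :
    meromorphicOrderAt (FA_Mero_ext (a : ℍ → ℂ)) (z₀ : ℂ) = ((FA_Mero_ordHol z₀ a : ℤ) : WithTop ℤ) := by
  rw [(FA_Mero_ext_analyticAt a.2 z₀).meromorphicOrderAt_eq, ← FA_Mero_ordHol_cast z₀ ha]
  rfl

/-- **Holomorphy criterion.** -/
theorem FA_Mero_exists_hol_of_val_le_one (x : FA_Mero_Field)
    (hx : ∀ z₀ : ℍ, FA_Mero_val z₀ x ≤ 1) : ∃ h : FA_Mero_Hol, ι h = x := by
  obtain ⟨a, b, hb, rfl⟩ := IsFractionRing.div_surjective (A := FA_Mero_Hol) x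
  have hb0 : b ≠ 0 := nonZeroDivisors.ne_zero hb
  have hb' : ι b ≠ 0 := FA_Mero_algebraMap_ne_zero hb0
  rcases eq_or_ne a 0 with rfl | ha
  · exact ⟨0, by simp⟩
  -- orders
  have hord : ∀ z₀ : ℍ, FA_Mero_ordHol z₀ b ≤ FA_Mero_ordHol z₀ a := by
    intro z₀
    have h := hx z₀
    rw [map_div₀, FA_Mero_val_algebraMap, FA_Mero_val_algebraMap,
      FA_Mero_valHol_apply z₀ ha, FA_Mero_valHol_apply z₀ hb0, ← WithZero.exp_sub,
      ← WithZero.exp_zero, WithZero.exp_le_exp] at h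
    omega
  set A : ℂ → ℂ := FA_Mero_ext (a : ℍ → ℂ) with hA
  set B : ℂ → ℂ := FA_Mero_ext (b : ℍ → ℂ) with hB
  have hAan : AnalyticOnNhd ℂ A upperHalfPlaneSet := FA_Mero_ext_analyticOnNhd a.2
  have hBan : AnalyticOnNhd ℂ B upperHalfPlaneSet := FA_Mero_ext_analyticOnNhd b.2
  have hq : MeromorphicOn (A / B) upperHalfPlaneSet :=
    hAan.meromorphicOn.div hBan.meromorphicOn
  set H : ℂ → ℂ := toMeromorphicNFOn (A / B) upperHalfPlaneSet with hH
  have hNF : MeromorphicNFOn H upperHalfPlaneSet := meromorphicNFOn_toMeromorphicNFOn _ _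
  have hHan : AnalyticOnNhd ℂ H upperHalfPlaneSet := by
    intro z hz
    have hz' : 0 < z.im := hz
    set z₀ : ℍ := ⟨z, hz'⟩
    have hzz : (z₀ : ℂ) = z := rfl
    rw [← (hNF hz).meromorphicOrderAt_nonneg_iff_analyticAt, hH,
      meromorphicOrderAt_toMeromorphicNFOn hq hz,
      meromorphicOrderAt_div (hAan z hz).meromorphicAt (hBan z hz).meromorphicAt, ← hzz,
      FA_Mero_meromorphicOrderAt_ext z₀ ha, FA_Mero_meromorphicOrderAt_ext z₀ hb0]
    have := hord z₀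
    have h2 : (0 : ℤ) ≤ (FA_Mero_ordHol z₀ a : ℤ) - (FA_Mero_ordHol z₀ b : ℤ) := by omega
    exact_mod_cast h2
  -- the product identity
  have hprod : ∀ z₀ : ℍ, H (z₀ : ℂ) * B (z₀ : ℂ) = A (z₀ : ℂ) := by
    intro z₀
    have hz : (z₀ : ℂ) ∈ upperHalfPlaneSet := z₀.2
    have hcont : ContinuousAt (fun w => H w * B w - A w) (z₀ : ℂ) :=
      (((hHan _ hz).continuousAt).mul ((hBan _ hz).continuousAt)).sub (hAan _ hz).continuousAt
    have hBne : ∀ᶠ w in 𝓝[≠] (z₀ : ℂ), B w ≠ 0 := by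
      rcases (hBan _ hz).eventually_eq_zero_or_eventually_ne_zero with h | h
      · exfalso
        apply hb0
        apply Subtype.ext
        exact FA_Mero_eq_zero_of_eventually b.2 z₀ h
      · exact h
    have hev : ∀ᶠ w in 𝓝[≠] (z₀ : ℂ), H w * B w - A w = 0 := by
      filter_upwards [hq.toMeromorphicNFOn_eq_self_on_nhdsNE hz, hBne] with w hw hBw
      rw [← hH] at hw
      rw [hw, Pi.div_apply, div_mul_cancel₀ _ hBw, sub_self]
    have h1 : Tendsto (fun w => H w * B w - A w) (𝓝[≠] (z₀ : ℂ)) (𝓝 (H z₀ * B z₀ - A z₀)) :=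
      hcont.tendsto.mono_left nhdsWithin_le_nhds
    have h2 : Tendsto (fun w => H w * B w - A w) (𝓝[≠] (z₀ : ℂ)) (𝓝 0) :=
      tendsto_const_nhds.congr' (hev.mono fun w hw => hw.symm)
    have := tendsto_nhds_unique h1 h2
    exact sub_eq_zero.mp this
  refine ⟨⟨fun z : ℍ => H (z : ℂ), FA_Mero_mdiff_of_analyticOnNhd hHan⟩, ?_⟩
  rw [eq_div_iff hb', ← map_mul]
  congr 1
  apply Subtype.ext
  funext z
  have := hprod z
  rw [hA, hB, FA_Mero_ext_apply, FA_Mero_ext_apply] at this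
  exact this

end Fermat.Agent.Mero
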