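import Mathlib
import Fermat.Agent.Lib.Mero5

/-!
# The chain rule for `D` under the action of `SL(2, ℤ)`

`D (f ∘ γ) = (D f) ∣[2] γ`, on holomorphic and on meromorphic functions.
-/

set_option autoImplicit false

noncomputable section

open UpperHalfPlane hiding I
open Complex WithZero Filter Derivative
open scoped MatrixGroups Manifold Topology Real ModularForm

namespace Fermat.Agent.Mero

local notation "ι" => algebraMap FA_Mero_Hol FA_Mero_Field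

/-- The weight-2 slash action on holomorphic functions. -/
def FA_Mero_slashHol (γ : SL(2, ℤ)) (f : FA_Mero_Hol) : FA_Mero_Hol :=
  ⟨(f : ℍ → ℂ) ∣[(2 : ℤ)] γ, by
    rw [ModularForm.SL_slash]
    exact f.2.slash 2 _⟩

theorem FA_Mero_slashHol_coe (γ : SL(2, ℤ)) (f : FA_Mero_Hol) :
    (FA_Mero_slashHol γ f : ℍ → ℂ) = (f : ℍ → ℂ) ∣[(2 : ℤ)] γ := rfl

theorem FA_Mero_slashHol_apply (γ : SL(2, ℤ)) (f : FA_Mero_Hol) (z : ℍ) :
    (FA_Mero_slashHol γ f : ℍ → ℂ) z = (f : ℍ → ℂ) (γ • z) * denom γ z ^ (-2 : ℤ) :=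
  ModularForm.SL_slash_apply _ _ _

/-- The automorphy factor `z ↦ (c z + d)⁻²`. -/
def FA_Mero_JHol (γ : SL(2, ℤ)) : FA_Mero_Hol := FA_Mero_slashHol γ 1

theorem FA_Mero_JHol_apply (γ : SL(2, ℤ)) (z : ℍ) :
    (FA_Mero_JHol γ : ℍ → ℂ) z = denom γ z ^ (-2 : ℤ) := by
  unfold FA_Mero_JHol
  rw [FA_Mero_slashHol_apply]
  show (1 : ℂ) * _ = _
  rw [one_mul]

theorem FA_Mero_JHol_ne_zero (γ : SL(2, ℤ)) : FA_Mero_JHol γ ≠ 0 := by
  intro h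
  have h1 := congrArg (fun f : FA_Mero_Hol => (f : ℍ → ℂ) UpperHalfPlane.I) h
  simp only [FA_Mero_JHol_apply] at h1
  exact zpow_ne_zero _ (denom_ne_zero _ _) h1

theorem FA_Mero_slashHol_eq (γ : SL(2, ℤ)) (f : FA_Mero_Hol) :
    FA_Mero_slashHol γ f = FA_Mero_JHol γ * (γ⁻¹ • f) := by
  apply Subtype.ext
  funext z
  show (FA_Mero_slashHol γ f : ℍ → ℂ) z = (FA_Mero_JHol γ : ℍ → ℂ) z * ((γ⁻¹ • f : FA_Mero_Hol) : ℍ → ℂ) z
  rw [FA_Mero_slashHol_apply, FA_Mero_JHol_apply, FA_Mero_Hol_smul_apply, inv_inv, mul_comm]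

theorem FA_Mero_smul_inv_coe (γ : SL(2, ℤ)) (f : FA_Mero_Hol) :
    ((γ⁻¹ • f : FA_Mero_Hol) : ℍ → ℂ) = (f : ℍ → ℂ) ∣[(0 : ℤ)] γ := by
  funext z
  rw [FA_Mero_Hol_smul_apply, inv_inv, ModularForm.SL_slash_apply]
  simp

/-- Chain rule on holomorphic functions. -/
theorem FA_Mero_DHol_smul_inv (γ : SL(2, ℤ)) (a : FA_Mero_Hol) :
    FA_Mero_DHol (γ⁻¹ • a) = FA_Mero_slashHol γ (FA_Mero_DHol a) := by
  apply Subtype.ext
  show D ((γ⁻¹ • a : FA_Mero_Hol) : ℍ → ℂ) = (D (a : ℍ → ℂ)) ∣[(2 : ℤ)] γ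
  rw [FA_Mero_smul_inv_coe, normalizedDerivOfComplex_SL_slash a.2]
  funext z
  simp

theorem FA_Mero_smul_div (γ : SL(2, ℤ)) (x y : FA_Mero_Field) :
    γ • (x / y) = (γ • x) / (γ • y) :=
  map_div₀ (MulSemiringAction.toRingHom SL(2, ℤ) FA_Mero_Field γ) x y

/-- Chain rule on meromorphic functions. -/
theorem FA_Mero_Der_smul_inv (γ : SL(2, ℤ)) (x : FA_Mero_Field) :
    FA_Mero_Der (γ⁻¹ • x) = ι (FA_Mero_JHol γ) * (γ⁻¹ • FA_Mero_Der x) := by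
  obtain ⟨a, b, hb, rfl⟩ := IsFractionRing.div_surjective (A := FA_Mero_Hol) x
  have hb0 := nonZeroDivisors.ne_zero hb
  have hb' := FA_Mero_algebraMap_ne_zero hb0
  have hγb0 : γ⁻¹ • b ≠ 0 := FA_Mero_smul_ne_zero_hol γ⁻¹ hb0
  have hγb' := FA_Mero_algebraMap_ne_zero hγb0
  rw [FA_Mero_smul_div, FA_Mero_smul_algebraMap, FA_Mero_smul_algebraMap,
    FA_Mero_Der_div _ hγb0, FA_Mero_Der_div _ hb0, FA_Mero_DHol_smul_inv,
    FA_Mero_DHol_smul_inv, FA_Mero_slashHol_eq, FA_Mero_slashHol_eq, FA_Mero_smul_div,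
    smul_sub, smul_mul', smul_mul', smul_pow', FA_Mero_smul_algebraMap,
    FA_Mero_smul_algebraMap, FA_Mero_smul_algebraMap, FA_Mero_smul_algebraMap]
  simp only [map_mul]
  field_simp

/-- The same for `γ` instead of `γ⁻¹`. -/
theorem FA_Mero_Der_smul (γ : SL(2, ℤ)) (x : FA_Mero_Field) :
    FA_Mero_Der (γ • x) = ι (FA_Mero_JHol γ⁻¹) * (γ • FA_Mero_Der x) := by
  have := FA_Mero_Der_smul_inv γ⁻¹ x
  rwa [inv_inv] at this

/-- The weight 2 slash action and the action on the field. -/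
theorem FA_Mero_algebraMap_slashHol (γ : SL(2, ℤ)) (f : FA_Mero_Hol) :
    ι (FA_Mero_slashHol γ f) = ι (FA_Mero_JHol γ) * (γ⁻¹ • ι f) := by
  rw [FA_Mero_slashHol_eq, map_mul, FA_Mero_smul_algebraMap]

/-- If `ι f = c · D t` then `ι (f ∣[2] γ) = (γ⁻¹ • c) · D (γ⁻¹ • t)`. -/
theorem FA_Mero_algebraMap_slashHol_of_eq (γ : SL(2, ℤ)) (f : FA_Mero_Hol)
    (c t : FA_Mero_Field) (h : ι f = c * FA_Mero_Der t) :
    ι (FA_Mero_slashHol γ f) = (γ⁻¹ • c) * FA_Mero_Der (γ⁻¹ • t) := by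
  rw [FA_Mero_algebraMap_slashHol, h, smul_mul', FA_Mero_Der_smul_inv]
  ring

end Fermat.Agent.Mero
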