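import Mathlib

/-!
# `𝔪`-adic completeness of power series rings over a complete local ring

If `R` is a local ring which is complete for its maximal ideal, then `R⟦X⟧` and
`MvPowerSeries σ R` (`σ` finite) are complete for their maximal ideals.
(Mathlib only provides completeness for the ideal generated by the variables.)
-/

set_option autoImplicit false

namespace Fermat.Agent.Lib

open PowerSeries IsLocalRing

section OneVariable

variable {R : Type*} [CommRing R] [IsLocalRing R]

/-- The ideal of power series whose `d`-th coefficient lies in `𝔪^(n-d)`. -/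
def FA_coeffIdeal (R : Type*) [CommRing R] [IsLocalRing R] (n : ℕ) : Ideal R⟦X⟧ where
  carrier := {g | ∀ d, coeff d g ∈ maximalIdeal R ^ (n - d)}
  zero_mem' := fun d => by simp
  add_mem' := fun {a b} ha hb d => by
    rw [map_add]; exact Ideal.add_mem _ (ha d) (hb d)
  smul_mem' := fun c g hg d => by
    rw [smul_eq_mul, PowerSeries.coeff_mul]
    refine Ideal.sum_mem _ fun p hp => ?_
    have hp' : p.1 + p.2 = d := Finset.HasAntidiagonal.mem_antidiagonal.mp hp
    exact Ideal.mul_mem_left _ _ (Ideal.pow_le_pow_right (by omega) (hg p.2))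

theorem FA_mem_coeffIdeal {n : ℕ} {g : R⟦X⟧} :
    g ∈ FA_coeffIdeal R n ↔ ∀ d, coeff d g ∈ maximalIdeal R ^ (n - d) := Iff.rfl

theorem FA_constantCoeff_mem_of_mem_maximalIdeal {m : R⟦X⟧} (hm : m ∈ maximalIdeal R⟦X⟧) :
    constantCoeff m ∈ maximalIdeal R := by
  rw [mem_maximalIdeal, mem_nonunits_iff] at hm ⊢
  rwa [← PowerSeries.isUnit_iff_constantCoeff]

theorem FA_maximalIdeal_mul_coeffIdeal_le (n : ℕ) :
    maximalIdeal R⟦X⟧ * FA_coeffIdeal R n ≤ FA_coeffIdeal R (n + 1) := by
  rw [Ideal.mul_le]
  intro m hm g hg d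
  rw [PowerSeries.coeff_mul]
  refine Ideal.sum_mem _ fun p hp => ?_
  have hp' : p.1 + p.2 = d := Finset.HasAntidiagonal.mem_antidiagonal.mp hp
  by_cases h0 : p.1 = 0
  · have h1 : coeff p.1 m ∈ maximalIdeal R := by
      rw [h0, PowerSeries.coeff_zero_eq_constantCoeff]
      exact FA_constantCoeff_mem_of_mem_maximalIdeal hm
    have h2 := hg p.2
    have h3 : coeff p.1 m * coeff p.2 g ∈ maximalIdeal R ^ (1 + (n - p.2)) := by
      rw [pow_add, pow_one]
      exact Ideal.mul_mem_mul h1 h2
    exact Ideal.pow_le_pow_right (by omega) h3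
  · exact Ideal.mul_mem_left _ _ (Ideal.pow_le_pow_right (by omega) (hg p.2))

theorem FA_maximalIdeal_pow_le_coeffIdeal (n : ℕ) :
    maximalIdeal R⟦X⟧ ^ n ≤ FA_coeffIdeal R n := by
  induction n with
  | zero =>
    intro g _ d
    simp
  | succ n ih =>
    rw [pow_succ']
    exact (Ideal.mul_mono_right ih).trans (FA_maximalIdeal_mul_coeffIdeal_le n)

theorem FA_C_mem_maximalIdeal_pow {a : R} {k : ℕ} (ha : a ∈ maximalIdeal R ^ k) :
    (C a : R⟦X⟧) ∈ maximalIdeal R⟦X⟧ ^ k := by
  have h1 : (maximalIdeal R).map (C : R →+* R⟦X⟧) ≤ maximalIdeal R⟦X⟧ := by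
    rw [Ideal.map_le_iff_le_comap]
    intro x hx
    rw [Ideal.mem_comap, mem_maximalIdeal, mem_nonunits_iff,
      PowerSeries.isUnit_iff_constantCoeff]
    simpa using hx
  have h2 : (C a : R⟦X⟧) ∈ ((maximalIdeal R).map (C : R →+* R⟦X⟧)) ^ k := by
    rw [← Ideal.map_pow]
    exact Ideal.mem_map_of_mem _ ha
  exact Ideal.pow_right_mono h1 k h2

theorem FA_X_mem_maximalIdeal : (X : R⟦X⟧) ∈ maximalIdeal R⟦X⟧ := by
  rw [mem_maximalIdeal, mem_nonunits_iff, PowerSeries.isUnit_iff_constantCoeff]
  simp

theorem FA_mem_maximalIdeal_pow_of_coeff (n : ℕ) :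
    ∀ g : R⟦X⟧, (∀ d < n, coeff d g ∈ maximalIdeal R ^ (n - d)) → g ∈ maximalIdeal R⟦X⟧ ^ n := by
  induction n with
  | zero => intro g _; simp
  | succ n ih =>
    intro g hg
    rw [PowerSeries.eq_X_mul_shift_add_const g]
    refine Ideal.add_mem _ ?_ ?_
    · rw [pow_succ']
      refine Ideal.mul_mem_mul FA_X_mem_maximalIdeal (ih _ fun d hd => ?_)
      rw [PowerSeries.coeff_mk]
      have := hg (d + 1) (by omega)
      simpa using this
    · apply FA_C_mem_maximalIdeal_pow
      have := hg 0 (by omega)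
      simpa [PowerSeries.coeff_zero_eq_constantCoeff] using this

/-- `R⟦X⟧` is complete for its maximal ideal if `R` is. -/
theorem FA_powerSeries_isAdicComplete [IsAdicComplete (maximalIdeal R) R] :
    IsAdicComplete (maximalIdeal R⟦X⟧) R⟦X⟧ := by
  have hH : IsHausdorff (maximalIdeal R) R := inferInstance
  have hP : IsPrecomplete (maximalIdeal R) R := inferInstance
  refine { toIsHausdorff := ⟨fun g hg => ?_⟩, toIsPrecomplete := ⟨fun f hf => ?_⟩ }
  · -- Hausdorff
    ext d
    rw [map_zero]
    apply hH.haus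
    intro k
    rw [SModEq.sub_mem, sub_zero, smul_eq_mul, Ideal.mul_top]
    have h1 := hg (k + d)
    rw [SModEq.sub_mem, sub_zero, smul_eq_mul, Ideal.mul_top] at h1
    have h2 := FA_maximalIdeal_pow_le_coeffIdeal (k + d) h1 d
    simpa using h2
  · -- precomplete
    have hf' : ∀ {m n : ℕ}, m ≤ n → f m - f n ∈ maximalIdeal R⟦X⟧ ^ m := by
      intro m n hmn
      have := hf hmn
      rwa [SModEq.sub_mem, smul_eq_mul, Ideal.mul_top] at this
    have hc : ∀ d : ℕ, ∃ c : R, ∀ k : ℕ,
        coeff d (f (k + d)) - c ∈ maximalIdeal R ^ k := by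
      intro d
      have := hP.prec (f := fun k => coeff d (f (k + d))) (by
        intro m n hmn
        rw [SModEq.sub_mem, smul_eq_mul, Ideal.mul_top]
        have h1 := FA_maximalIdeal_pow_le_coeffIdeal (m + d)
          (hf' (show m + d ≤ n + d by omega)) d
        simpa using h1)
      obtain ⟨c, hc⟩ := this
      refine ⟨c, fun k => ?_⟩
      have := hc k
      rwa [SModEq.sub_mem, smul_eq_mul, Ideal.mul_top] at this
    choose c hc using hc
    refine ⟨PowerSeries.mk c, fun n => ?_⟩
    rw [SModEq.sub_mem, smul_eq_mul, Ideal.mul_top]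
    apply FA_mem_maximalIdeal_pow_of_coeff
    intro d hd
    rw [map_sub, PowerSeries.coeff_mk]
    have := hc d (n - d)
    rwa [Nat.sub_add_cancel hd.le] at this

end OneVariable

section Transport

/-- Completeness for the maximal ideal transports along ring isomorphisms of local rings. -/
theorem FA_isAdicComplete_maximalIdeal_of_ringEquiv {A B : Type*} [CommRing A] [CommRing B]
    [IsLocalRing A] [IsLocalRing B] (e : A ≃+* B) [h : IsAdicComplete (maximalIdeal A) A] :
    IsAdicComplete (maximalIdeal B) B := by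
  have h1 := (IsAdicComplete.congr_ringEquiv (maximalIdeal A) e).mpr h
  rwa [IsLocalRing.map_ringEquiv_maximalIdeal] at h1

end Transport

section ManyVariables

variable (R : Type*) [CommRing R] [IsLocalRing R] [IsAdicComplete (maximalIdeal R) R]

theorem FA_mvPowerSeries_fin_isAdicComplete (n : ℕ) :
    IsAdicComplete (maximalIdeal (MvPowerSeries (Fin n) R)) (MvPowerSeries (Fin n) R) := by
  induction n with
  | zero =>
    exact FA_isAdicComplete_maximalIdeal_of_ringEquiv
      (MvPowerSeries.isEmptyEquiv (Fin 0) R).toRingEquiv.symm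
  | succ n ih =>
    have h1 : IsAdicComplete (maximalIdeal (PowerSeries (MvPowerSeries (Fin n) R)))
        (PowerSeries (MvPowerSeries (Fin n) R)) := FA_powerSeries_isAdicComplete
    exact FA_isAdicComplete_maximalIdeal_of_ringEquiv
      (MvPowerSeries.finSuccEquiv R n).toRingEquiv.symm

/-- `MvPowerSeries σ R` (`σ` finite) is complete for its maximal ideal if the local ring `R` is. -/
theorem FA_mvPowerSeries_isAdicComplete (σ : Type*) [Finite σ] :
    IsAdicComplete (maximalIdeal (MvPowerSeries σ R)) (MvPowerSeries σ R) := by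
  cases nonempty_fintype σ
  have h1 := FA_mvPowerSeries_fin_isAdicComplete R (Fintype.card σ)
  exact FA_isAdicComplete_maximalIdeal_of_ringEquiv
    (MvPowerSeries.renameEquiv R (Fintype.equivFin σ)).toRingEquiv.symm

end ManyVariables

end Fermat.Agent.Lib
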